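/-
CFT program, layer Global, [F2-chase], part 1: the abstract chase (pure group cohomology).

* `map_injective_of_descent` : inflation along a surjection with descent is injective on `H²`
  (category-level form of `Glob/ClassP.descent_injective`);
* `card_zsmul_H2` : `H²` of a finite group is killed by the order of the group;
* `eq_zero_of_cyclic` : in a cyclic `p`-group two subgroups with trivial intersection, one of
  them nonzero: the other one is zero;
* `chase` : the crossing argument for local–global injectivity (helper45).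
-/
import Mathlib
import Fermat.Agent.CFT.Coh.Provide
import Fermat.Agent.CFT.Glob.ClassP

set_option autoImplicit false

open CategoryTheory groupCohomology

namespace Fermat.Agent.CFT.Global.LGChase

open Fermat.Agent.CFT.Coh.InfRes2Core Fermat.Agent.CFT.Glob

/-- Inflation along a surjection with descent is injective on `H²`. -/
theorem map_injective_of_descent {G G' : Type} [Group G] [Group G'] (A : Rep.{0} ℤ G)
    (B : Rep.{0} ℤ G') (π : G' →* G) (φ : Rep.res π A ⟶ B) (hπ : Function.Surjective π)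
    (hinj : Function.Injective φ.hom)
    (hfix : ∀ b : B.V, (∀ n ∈ π.ker, B.ρ n b = b) → ∃ a : A.V, φ.hom a = b)
    (h1 : Limits.IsZero (groupCohomology (Rep.res π.ker.subtype B) 1)) :
    Function.Injective (groupCohomology.map π φ 2).hom := by
  rw [injective_iff_map_eq_zero]
  intro y hy
  induction y using H2_induction_on with | @h F =>
  rw [H2π_comp_map_apply, H2π_eq_zero_iff] at hy
  obtain ⟨x, hx⟩ := hy
  rw [H2π_eq_zero_iff]
  let j : A.V →+ B.V :=
    { toFun := fun a => φ.hom a, map_zero' := map_zero φ.hom, map_add' := map_add φ.hom }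
  have hcomm : ∀ (g : G') (c : A.V), j (A.ρ (π g) c) = B.ρ g (j c) := by
    intro g c
    exact Rep.hom_comm_apply φ g c
  obtain ⟨y, hy⟩ := @ClassP.descent_injective ℤ G' G B.V A.V _ _ _ _ B.hV2 _ A.hV2
    B.ρ A.ρ π j hπ hinj hcomm hfix
    (Coh.h1Van_of_cocycles B π.ker (Coh.cocycles_of_subsingleton B π.ker
      (ModuleCat.subsingleton_of_isZero h1)))
    F ((mem_cocycles₂_iff F).1 F.2) x (fun g h => by
      have e := congrFun hx (g, h)
      rw [d₁₂_hom_apply] at e
      exact e.symm)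
  refine ⟨y, funext fun p => ?_⟩
  obtain ⟨a, b⟩ := p
  rw [d₁₂_hom_apply]
  exact (hy a b).symm

/-- `H²` of a finite group is killed by the order of the group. -/
theorem card_zsmul_H2 {G : Type} [Group G] [Finite G] (A : Rep.{0} ℤ G)
    (x : groupCohomology A 2) : (Nat.card G : ℤ) • x = 0 := by
  induction x using H2_induction_on with | @h F =>
  rw [← map_zsmul, H2π_eq_zero_iff]
  obtain ⟨y, hy⟩ := @ClassP.card_zsmul_eq_dOne ℤ G A.V _ _ _ A.hV2 A.ρ _ F
    ((mem_cocycles₂_iff F).1 F.2)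
  refine ⟨y, funext fun p => ?_⟩
  obtain ⟨a, b⟩ := p
  rw [d₁₂_hom_apply]
  exact (hy a b).symm

/-- In a cyclic group killed by a power of a prime, two subgroups with trivial intersection,
one of them nonzero: the other one is zero. -/
theorem eq_zero_of_cyclic {X : Type} [AddCommGroup X] {p N : ℕ} (hp : p.Prime) (σ : X)
    (hσ : ∀ y : X, ∃ k : ℤ, y = k • σ) (hN : ((p ^ N : ℕ) : ℤ) • σ = 0)
    (A B : AddSubgroup X) (hAB : ∀ x, x ∈ A → x ∈ B → x = 0) {b : X} (hb : b ∈ B)
    (hb0 : b ≠ 0) {a : X} (ha : a ∈ A) : a = 0 := by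
  obtain ⟨k, rfl⟩ := hσ a
  obtain ⟨l, rfl⟩ := hσ b
  -- the gcd's with `p ^ N`
  have key : ∀ k : ℤ, ∃ s : ℕ, ((p ^ s : ℕ) : ℤ) ∣ k ∧ ∃ u : ℤ, ((p ^ s : ℕ) : ℤ) • σ = u • (k • σ) := by
    intro k
    obtain ⟨s, -, hs⟩ := (Nat.dvd_prime_pow hp).mp (Int.gcd_dvd_natAbs_right k ((p ^ N : ℕ) : ℤ) |>.trans
      (by rw [Int.natAbs_natCast]))
    refine ⟨s, ?_, Int.gcdA k ((p ^ N : ℕ) : ℤ), ?_⟩
    · rw [← hs]
      exact Int.gcd_dvd_left k _
    · have e := Int.gcd_eq_gcd_ab k ((p ^ N : ℕ) : ℤ)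
      rw [hs] at e
      rw [e, add_smul, mul_comm k, mul_smul, mul_comm ((p ^ N : ℕ) : ℤ), mul_smul, hN, smul_zero,
        add_zero]
  obtain ⟨s, hsk, u, hu⟩ := key k
  obtain ⟨t, htl, v, hv⟩ := key l
  rcases le_total s t with hst | hts
  · -- `b` is a multiple of `a`
    exfalso
    apply hb0
    have hdvd : ((p ^ s : ℕ) : ℤ) ∣ l :=
      (Int.natCast_dvd_natCast.mpr (pow_dvd_pow p hst)).trans htl
    obtain ⟨c, rfl⟩ := hdvd
    apply hAB _ _ hb
    rw [mul_comm, mul_smul, hu]
    exact A.zsmul_mem (A.zsmul_mem ha _) _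
  · have hdvd : ((p ^ t : ℕ) : ℤ) ∣ k :=
      (Int.natCast_dvd_natCast.mpr (pow_dvd_pow p hts)).trans hsk
    obtain ⟨c, rfl⟩ := hdvd
    apply hAB _ ha
    rw [mul_comm, mul_smul, hv]
    exact B.zsmul_mem (B.zsmul_mem hb _) _

/-- Functoriality square for `groupCohomology.map`: a commutative square of representation
morphisms over `π` gives a commutative square on cohomology. -/
theorem map_square {G G' : Type} [Group G] [Group G'] {B C : Rep.{0} ℤ G} {B' C' : Rep.{0} ℤ G'}
    (j : B ⟶ C) (j' : B' ⟶ C') (π : G' →* G) (φB : Rep.res π B ⟶ B') (φC : Rep.res π C ⟶ C')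
    (hsq : ∀ b : B.V, φC.hom (j.hom b) = j'.hom (φB.hom b)) (n : ℕ) (x : groupCohomology B n) :
    (groupCohomology.map π φC n).hom ((groupCohomology.map (MonoidHom.id G) j n).hom x) =
      (groupCohomology.map (MonoidHom.id G') j' n).hom ((groupCohomology.map π φB n).hom x) := by
  have h1 : groupCohomology.map (MonoidHom.id G) j n ≫ groupCohomology.map π φC n =
      groupCohomology.map π φB n ≫ groupCohomology.map (MonoidHom.id G') j' n := by
    rw [← groupCohomology.map_comp, ← groupCohomology.map_comp]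
    refine groupCohomology.map_congr rfl ?_ n
    exact DFunLike.ext _ _ fun b => hsq b
  exact congrArg (fun F => F.hom x) h1

/-- **The crossing argument.**  `j : B ⟶ C` over `G`, `j' : B' ⟶ C'` over `G'`, `jZ : BZ ⟶ CZ`
over `Γ`, with inflation maps from `G` and from `Γ` to `G'` commuting with the `j`'s.  If
`H²(G', B')` is cyclic (`G'` a `p`-group), the inflations `H²(G, B) → H²(G', B')`,
`H²(Γ, BZ) → H²(G', B')`, `H²(Γ, CZ) → H²(G', C')` are injective, `H²(Γ, BZ) ≠ 0` and
`H²(Γ, BZ) → H²(Γ, CZ)` is injective, then `H²(G, B) → H²(G, C)` is injective. -/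
theorem chase {G G' Γ : Type} [Group G] [Group G'] [Group Γ] [Finite G']
    {B C : Rep.{0} ℤ G} {B' C' : Rep.{0} ℤ G'} {BZ CZ : Rep.{0} ℤ Γ}
    (j : B ⟶ C) (j' : B' ⟶ C') (jZ : BZ ⟶ CZ) (π : G' →* G) (πZ : G' →* Γ)
    (φB : Rep.res π B ⟶ B') (φC : Rep.res π C ⟶ C')
    (ψB : Rep.res πZ BZ ⟶ B') (ψC : Rep.res πZ CZ ⟶ C')
    (hsq : ∀ b : B.V, φC.hom (j.hom b) = j'.hom (φB.hom b))
    (hsqZ : ∀ b : BZ.V, ψC.hom (jZ.hom b) = j'.hom (ψB.hom b))
    {p : ℕ} (hp : p.Prime) (hG' : IsPGroup p G')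
    (hcyc : ∃ σ : groupCohomology B' 2, ∀ y : groupCohomology B' 2, ∃ k : ℤ, y = k • σ)
    (hφB : Function.Injective (groupCohomology.map π φB 2).hom)
    (hψB : Function.Injective (groupCohomology.map πZ ψB 2).hom)
    (hψC : Function.Injective (groupCohomology.map πZ ψC 2).hom)
    (hjZ : Function.Injective (groupCohomology.map (MonoidHom.id Γ) jZ 2).hom)
    (hne : ∃ b : groupCohomology BZ 2, b ≠ 0) :
    Function.Injective (groupCohomology.map (MonoidHom.id G) j 2).hom := by
  obtain ⟨σ, hσ⟩ := hcyc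
  have : Fact p.Prime := ⟨hp⟩
  obtain ⟨N, hN⟩ := IsPGroup.iff_card.mp hG'
  obtain ⟨b₀, hb₀⟩ := hne
  rw [injective_iff_map_eq_zero]
  intro b hb
  apply hφB
  rw [map_zero]
  have hσN : ((p ^ N : ℕ) : ℤ) • σ = 0 := by
    rw [← hN]
    exact card_zsmul_H2 B' σ
  refine eq_zero_of_cyclic hp σ hσ hσN
    (LinearMap.ker (groupCohomology.map (MonoidHom.id G') j' 2).hom).toAddSubgroup
    (LinearMap.range (groupCohomology.map πZ ψB 2).hom).toAddSubgroup ?_
    (b := (groupCohomology.map πZ ψB 2).hom b₀) ⟨b₀, rfl⟩ ?_ ?_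
  · rintro x hx ⟨y, rfl⟩
    have h1 : (groupCohomology.map (MonoidHom.id G') j' 2).hom
        ((groupCohomology.map πZ ψB 2).hom y) = 0 := hx
    rw [← map_square jZ j' πZ ψB ψC hsqZ 2 y] at h1
    have h2 : (groupCohomology.map (MonoidHom.id Γ) jZ 2).hom y = 0 := by
      apply hψC
      rw [h1, map_zero]
    have h3 : y = 0 := by
      apply hjZ
      rw [h2, map_zero]
    rw [h3, map_zero]
  · intro h
    apply hb₀
    apply hψB
    rw [h, map_zero]
  · show (groupCohomology.map (MonoidHom.id G') j' 2).hom ((groupCohomology.map π φB 2).hom b) = 0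
    rw [← map_square j j' π φB φC hsq 2 b, hb, map_zero]

end Fermat.Agent.CFT.Global.LGChase
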