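/-
CFT program, layer Global, [F2-chase], part 2: the tower maps on blocks and on idele classes as
morphisms of representations over `π : G' →* G`, and their compatibility with `orbitToClass`
(helper45).
-/
import Mathlib
import Fermat.Agent.CFT.Global.Defs
import Fermat.Agent.CFT.Global.ClassDescent

set_option autoImplicit false

open CategoryTheory
open scoped TensorProduct
open scoped Fermat.Agent.CFT.Global

noncomputable section

namespace Fermat.Agent.CFT.Global.LGChase

open Fermat.Agent.CFT.Global

variable {L L' : Type} [Field L] [CharZero L] [Field L'] [CharZero L']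
variable {G G' : Type} [Group G] [Group G'] [MulSemiringAction G L] [MulSemiringAction G' L']
  {f : L →+* L'} {π : G' →* G}

/-- `C_L → C_{L'}` as a morphism of representations over `π`. -/
def classTower (h : IsTower f π) : Rep.res π (classRep G L) ⟶ classRep G' L' :=
  Rep.ofHom ⟨classMap f, fun g => by
    apply LinearMap.ext
    intro c
    exact ClassDescent.classMap_rho h g c⟩

theorem classTower_hom_apply (h : IsTower f π) (c : ClassGroupOf L) :
    (classTower h).hom c = classMap f c := rfl

/-- The map of blocks `∏_{w ∈ G·m} L_wˣ → ∏_{w' ∈ G'·m'} L'_{w'}ˣ` as a morphism of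
representations over `π` (given that it is well defined). -/
def blockTower (h : IsTower f π) (q : ℕ) [Fact q.Prime] (m : Ideal (SemiLocal L q))
    (m' : Ideal (SemiLocal L' q))
    (hmap : ∀ x ∈ orbitUnits G L q m,
      Units.map (semiLocalMap q f).toMonoidHom x ∈ orbitUnits G' L' q m') :
    Rep.res π (orbitRep G L q m) ⟶ orbitRep G' L' q m' :=
  Rep.ofHom ⟨LinearMap.restrict
      (MonoidHom.toAdditive (Units.map (semiLocalMap q f).toMonoidHom)).toIntLinearMap
      (fun x hx => hmap _ hx), fun g => by
    apply LinearMap.ext
    intro x
    apply Subtype.ext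
    have key : ∀ y : ↥(addSub (orbitUnits G L q m)),
        Additive.ofMul (Units.map (semiLocalMap q f).toMonoidHom
          (π g • (Additive.toMul (y : Additive (SemiLocal L q)ˣ)))) =
        Additive.ofMul (g • Units.map (semiLocalMap q f).toMonoidHom
          (Additive.toMul (y : Additive (SemiLocal L q)ˣ))) := by
      intro y
      congr 1
      apply Units.ext
      exact ClassDescent.semiLocalMap_smul h q g _
    exact key x⟩

theorem blockTower_hom_coe (h : IsTower f π) (q : ℕ) [Fact q.Prime] (m : Ideal (SemiLocal L q))
    (m' : Ideal (SemiLocal L' q))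
    (hmap : ∀ x ∈ orbitUnits G L q m,
      Units.map (semiLocalMap q f).toMonoidHom x ∈ orbitUnits G' L' q m')
    (x : ↥(addSub (orbitUnits G L q m))) :
    (show ↥(addSub (orbitUnits G' L' q m')) from (blockTower h q m m' hmap).hom x).1 =
      Additive.ofMul (Units.map (semiLocalMap q f).toMonoidHom
        (Additive.toMul (x : Additive (SemiLocal L q)ˣ))) := rfl

theorem ideleProdMap_mulSingle (q : Nat.Primes) (x : (SemiLocal L q)ˣ) :
    ideleProdMap f (Pi.mulSingle q x) =
      Pi.mulSingle q (Units.map (semiLocalMap (q : ℕ) f).toMonoidHom x) := by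
  funext q'
  rw [ideleProdMap_apply]
  by_cases hq : q' = q
  · subst hq
    rw [Pi.mulSingle_eq_same, Pi.mulSingle_eq_same]
  · rw [Pi.mulSingle_eq_of_ne hq, Pi.mulSingle_eq_of_ne hq, map_one]

/-- The block maps commute with the maps to the idele class groups. -/
theorem classTower_orbitToClass (h : IsTower f π) (q : Nat.Primes) (m : Ideal (SemiLocal L q))
    (m' : Ideal (SemiLocal L' q))
    (hmap : ∀ x ∈ orbitUnits G L q m,
      Units.map (semiLocalMap (q : ℕ) f).toMonoidHom x ∈ orbitUnits G' L' q m')
    (b : (orbitRep G L q m).V) :
    (classTower h).hom ((orbitToClass G L q m).hom b) =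
      (orbitToClass G' L' q m').hom ((blockTower h q m m' hmap).hom b) := by
  show classMap f (Submodule.Quotient.mk _) = Submodule.Quotient.mk _
  show Submodule.Quotient.mk (ideleMap f _) = Submodule.Quotient.mk _
  congr 1
  apply Subtype.ext
  exact congrArg Additive.ofMul (ideleProdMap_mulSingle q _)

end Fermat.Agent.CFT.Global.LGChase
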