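/-
CFT program, layer Global, [F2-chase]: the auxiliary layer in NORM FORM for a cyclic group.

`AuxLayerCyc` is `LGChase.AuxLayer` with `Γ` cyclic and the injectivity clause replaced by its
`Ĥ⁰`-form: a `Γ`-invariant element of the block whose idele class is a norm from `C_Z` is a norm
from the block.  `auxLayer_of_cyc : AuxLayerCyc → AuxLayer` (periodicity of the cohomology of
cyclic groups, helper65's `LG.injective_of_norm`).  (helper45)
-/
import Fermat.Agent.CFT.Global.LGChase
import Fermat.Agent.CFT.Global.LG.CyclicNorm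

set_option autoImplicit false

open CategoryTheory
open scoped Fermat.Agent.CFT.Global

namespace Fermat.Agent.CFT.Global.LGChase

open Fermat.Agent.CFT Fermat.Agent.CFT.Global

/-- [AUX-cyc] **The auxiliary layer, norm form.**  As `AuxLayer`, with `Γ` cyclic and the last
clause in `Ĥ⁰`-form: for `a` in the block `∏_{u ∣ v} Z_uˣ` fixed by `Γ`, if the class of `a` in
`C_Z` is a norm `N_Γ c`, then `a = N_Γ b` for some `b` in the block. -/
def AuxLayerCyc : Prop :=
  ∀ (p : ℕ) [Fact p.Prime], p ≠ 2 →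
  ∀ (G L : Type) [Group G] [Fintype G] [Field L] [NumberField L] [MulSemiringAction G L]
    [FaithfulSMul G L], IsPGroup p G →
  ∀ (q : Nat.Primes) (m : Ideal (SemiLocal L q)), m.IsMaximal →
    ∃ (L' : Type) (_ : Field L') (_ : NumberField L') (G' : Type) (_ : Group G')
      (_ : Fintype G') (_ : MulSemiringAction G' L') (f : L →+* L') (π : G' →* G)
      (Z : Type) (_ : Field Z) (_ : NumberField Z) (Γ : Type) (_ : Group Γ)
      (_ : Fintype Γ) (_ : MulSemiringAction Γ Z) (fZ : Z →+* L') (πZ : G' →* Γ)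
      (m' : Ideal (SemiLocal L' q)),
      FaithfulSMul G' L' ∧ IsPGroup p G' ∧ IsTower f π ∧ FaithfulSMul Γ Z ∧ IsTower fZ πZ ∧
      IsCyclic Γ ∧ m'.IsMaximal ∧ m'.comap (semiLocalMap (q : ℕ) f) = m ∧
      decompGroup Γ Z q (m'.comap (semiLocalMap (q : ℕ) fZ)) ≠ ⊥ ∧
      ∀ a : (orbitRep Γ Z q (m'.comap (semiLocalMap (q : ℕ) fZ))).V,
        (∀ γ : Γ, (orbitRep Γ Z q (m'.comap (semiLocalMap (q : ℕ) fZ))).ρ γ a = a) →
        (∃ c : ClassGroupOf Z, (classRep Γ Z).ρ.norm c =
          (orbitToClass Γ Z q (m'.comap (semiLocalMap (q : ℕ) fZ))).hom a) →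
        ∃ b : (orbitRep Γ Z q (m'.comap (semiLocalMap (q : ℕ) fZ))).V,
          (orbitRep Γ Z q (m'.comap (semiLocalMap (q : ℕ) fZ))).ρ.norm b = a

/-- An element fixed by a generator is fixed by the whole (cyclic) group. -/
theorem fixed_of_generator {k Γ : Type} [CommRing k] [Group Γ] (A : Rep.{0} k Γ) (g : Γ)
    (hg : ∀ x : Γ, x ∈ Subgroup.zpowers g) (a : A.V) (ha : A.ρ g a = a) (γ : Γ) :
    A.ρ γ a = a := by
  let S : Subgroup Γ :=
    { carrier := {x | A.ρ x a = a}
      one_mem' := by simp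
      mul_mem' := by
        intro x y hx hy
        show A.ρ (x * y) a = a
        rw [map_mul, Module.End.mul_apply, hy, hx]
      inv_mem' := by
        intro x hx
        show A.ρ x⁻¹ a = a
        have h1 : A.ρ x⁻¹ (A.ρ x a) = a := by
          rw [← Module.End.mul_apply, ← map_mul, inv_mul_cancel, map_one, Module.End.one_apply]
        rwa [hx] at h1 }
  have hle : Subgroup.zpowers g ≤ S := (Subgroup.zpowers_le (H := S)).mpr ha
  exact hle (hg γ)

/-- **The norm form implies the auxiliary layer.** -/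
theorem auxLayer_of_cyc (h : AuxLayerCyc) : AuxLayer := by
  intro p _ hp2 G L _ _ _ _ _ _ hG q m hm
  obtain ⟨L', iF', iN', G', iG', iFin', iA', f, π, Z, iZ, iNZ, Γ, iΓ, iFΓ, iAΓ, fZ, πZ, m',
    hfaith, hG', hT, hfaithZ, hTZ, hcyc, hm', hmm', hD, hnorm⟩ := h p hp2 G L hG q m hm
  refine ⟨L', iF', iN', G', iG', iFin', iA', f, π, Z, iZ, iNZ, Γ, iΓ, iFΓ, iAΓ, fZ, πZ, m',
    hfaith, hG', hT, hfaithZ, hTZ, hm', hmm', hD, ?_⟩
  obtain ⟨g, hg⟩ := hcyc.exists_generator
  exact LG.injective_of_norm g (orbitToClass Γ Z q (m'.comap (semiLocalMap (q : ℕ) fZ))) hg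
    (fun a ha hc => hnorm a (fixed_of_generator _ g hg a ha) hc)

end Fermat.Agent.CFT.Global.LGChase
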