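/-
CFT program, layer Global, [F2-chase]: the contract `LGChase.BlockH1` ([BH1]) — Hilbert 90 for
the blocks `∏_{w' ∈ G·w} L_{w'}ˣ` restricted to any subgroup.

* `hilbert90_artinian` : Hilbert 90 for an Artinian ring with a finite group action separating
  the group elements modulo every maximal ideal (Poincaré series, independence of characters,
  Chinese remainder theorem; no Shapiro lemma);
* `block_hilbert90` : cocycle form for the blocks of `L ⊗ ℚ_q`;
* `blockH1_holds : BlockH1`.  (helper45)
-/
import Mathlib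
import Fermat.Agent.CFT.Global.LGChase

set_option autoImplicit false

open scoped Fermat.Agent.CFT.Global
open scoped TensorProduct

namespace Fermat.Agent.CFT.Global.LGChase

open Fermat.Agent.CFT Fermat.Agent.CFT.Global

section AbstractH90

variable {A N : Type*} [CommRing A] [IsArtinianRing A] [Group N] [Fintype N]
  [MulSemiringAction N A]

/-- **Hilbert 90 for an Artinian reduced ring** with a finite group action which separates
the group elements modulo every maximal ideal (Poincaré series + independence of characters +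
Chinese remainder theorem). -/
theorem hilbert90_artinian
    (hsep : ∀ M : Ideal A, M.IsMaximal → ∀ ν₁ ν₂ : N, ν₁ ≠ ν₂ → ∃ t : A, ν₁ • t - ν₂ • t ∉ M)
    (c c' : N → A) (hcc' : ∀ n, c n * c' n = 1)
    (hc : ∀ a b : N, c (a * b) = c a * a • c b) :
    ∃ y y' : A, y * y' = 1 ∧ ∀ n : N, c n * n • y = y := by
  classical
  -- the Poincaré series
  set b : A → A := fun t => ∑ n : N, c n * n • t with hb
  have key1 : ∀ (n' : N) (t : A), c n' * n' • b t = b t := by
    intro n' t
    simp only [hb, Finset.smul_sum, Finset.mul_sum, smul_mul']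
    refine Fintype.sum_equiv (Equiv.mulLeft n') _ _ (fun n => ?_)
    show c n' * (n' • c n * n' • n • t) = c (n' * n) * (n' * n) • t
    rw [hc, mul_smul, mul_assoc]
  have key3 : ∀ (M : Ideal A) (n : N) (t : A), n • b t ∈ M ↔ b t ∈ M := by
    intro M n t
    constructor
    · intro h
      rw [← key1 n t]
      exact M.mul_mem_left _ h
    · intro h
      have h1 : n • b t = c' n * b t := by
        calc n • b t = (c n * c' n) * n • b t := by rw [hcc', one_mul]
          _ = c' n * (c n * n • b t) := by ring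
          _ = c' n * b t := by rw [key1]
      rw [h1]
      exact M.mul_mem_left _ h
  -- independence of characters: for every maximal ideal some value of the series is outside
  have key2 : ∀ M : Ideal A, M.IsMaximal → ∃ t : A, b t ∉ M := by
    intro M hM
    let _ : Field (A ⧸ M) := Ideal.Quotient.field M
    let χ : N → (A →* A ⧸ M) := fun n =>
      ((Ideal.Quotient.mk M).comp (MulSemiringAction.toRingHom N A n)).toMonoidHom
    have hχ : Function.Injective χ := by
      intro ν₁ ν₂ h
      by_contra hne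
      obtain ⟨t, ht⟩ := hsep M hM ν₁ ν₂ hne
      apply ht
      have := DFunLike.congr_fun h t
      rw [← Ideal.Quotient.eq]
      exact this
    have hli : LinearIndependent (A ⧸ M) (fun n : N => (χ n : A → A ⧸ M)) :=
      (linearIndependent_monoidHom A (A ⧸ M)).comp χ hχ
    by_contra hcon
    push Not at hcon
    have hsum : ∑ n : N, Ideal.Quotient.mk M (c n) • (χ n : A → A ⧸ M) = 0 := by
      funext t
      have := Ideal.Quotient.eq_zero_iff_mem.mpr (hcon t)
      simp only [hb, map_sum, map_mul] at this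
      simp only [Finset.sum_apply, Pi.smul_apply, smul_eq_mul, Pi.zero_apply]
      exact this
    have h1 := Fintype.linearIndependent_iff.mp hli _ hsum 1
    have h2 : Ideal.Quotient.mk M (c 1 * c' 1) = 0 := by rw [map_mul, h1, zero_mul]
    rw [hcc', map_one] at h2
    exact one_ne_zero h2
  -- a choice depending only on the orbit
  let O : MaximalSpectrum A → Set (MaximalSpectrum A) :=
    fun M => {M' | SemiLocalGalois.InOrbit N M'.asIdeal M.asIdeal}
  have key4 : ∀ M : MaximalSpectrum A, ∃ t : A, ∀ M' ∈ O M, b t ∉ M'.asIdeal := by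
    intro M
    obtain ⟨t, ht⟩ := key2 M.asIdeal M.isMaximal
    refine ⟨t, fun M' hM' h => ht ?_⟩
    obtain ⟨g, hg⟩ := hM'
    exact (key3 _ g t).mp ((hg _).mp h)
  let τ : Set (MaximalSpectrum A) → A := fun S =>
    if h : ∃ t : A, ∀ M' ∈ S, b t ∉ M'.asIdeal then Classical.choose h else 0
  have hτ : ∀ M : MaximalSpectrum A, b (τ (O M)) ∉ M.asIdeal := by
    intro M
    have h := key4 M
    have : τ (O M) = Classical.choose h := dif_pos h
    rw [this]
    exact Classical.choose_spec h M (SemiLocalGalois.InOrbit.refl N _)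
  obtain ⟨t₀, ht₀⟩ := SemiLocalGalois.exists_forall_sub_mem (fun M => τ (O M))
  have hOeq : ∀ (M : MaximalSpectrum A) (n : N),
      O ⟨SemiLocalGalois.translate M.asIdeal n,
        SemiLocalGalois.translate_isMaximal M.isMaximal n⟩ = O M := by
    intro M n
    have h1 : SemiLocalGalois.InOrbit N (SemiLocalGalois.translate M.asIdeal n) M.asIdeal :=
      ⟨n, fun a => Iff.rfl⟩
    ext M'
    exact ⟨fun h => h.trans h1, fun h => h.trans h1.symm⟩
  have hunit : ∀ M : MaximalSpectrum A, b t₀ ∉ M.asIdeal := by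
    intro M h
    apply hτ M
    have hdiff : b t₀ - b (τ (O M)) ∈ M.asIdeal := by
      simp only [hb, ← Finset.sum_sub_distrib, ← mul_sub, ← smul_sub]
      refine M.asIdeal.sum_mem fun n _ => M.asIdeal.mul_mem_left _ ?_
      have := ht₀ ⟨SemiLocalGalois.translate M.asIdeal n,
        SemiLocalGalois.translate_isMaximal M.isMaximal n⟩
      rw [hOeq M n] at this
      exact SemiLocalGalois.mem_translate.mp this
    have := M.asIdeal.sub_mem h hdiff
    rwa [sub_sub_cancel] at this
  have hu : IsUnit (b t₀) := by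
    by_contra hnu
    obtain ⟨I, hI, hmem⟩ := exists_max_ideal_of_mem_nonunits hnu
    exact hunit ⟨I, hI⟩ hmem
  obtain ⟨u, hu⟩ := hu
  exact ⟨b t₀, ((u⁻¹ : Aˣ) : A), by rw [← hu, Units.mul_inv], fun n => key1 n t₀⟩

end AbstractH90

/-- Hilbert 90 for the blocks, cocycle form: a `1`-cocycle of a subgroup `N ≤ G` with values in
the block of `m` is the coboundary of an element of the block. -/
theorem block_hilbert90 (G L : Type) [Group G] [Fintype G] [Field L] [NumberField L]
    [MulSemiringAction G L] [FaithfulSMul G L] (q : ℕ) [Fact q.Prime]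
    (m : Ideal (SemiLocal L q)) (N : Subgroup G) (c : N → (SemiLocal L q)ˣ)
    (hcm : ∀ n, c n ∈ orbitUnits G L q m)
    (hc : ∀ a b : N, c (a * b) = c a * (a : G) • c b) :
    ∃ Y ∈ orbitUnits G L q m, ∀ n : N, c n * (n : G) • Y = Y := by
  classical
  have hA : IsArtinianRing (SemiLocal L q) := (SemiLocalGalois.semiLocalArtinian L q).1
  have hR : IsReduced (SemiLocal L q) := (SemiLocalGalois.semiLocalArtinian L q).2
  let _ : Fintype N := Fintype.ofFinite _
  have hsep : ∀ M : Ideal (SemiLocal L q), M.IsMaximal → ∀ ν₁ ν₂ : N, ν₁ ≠ ν₂ →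
      ∃ t : SemiLocal L q, ν₁ • t - ν₂ • t ∉ M := by
    intro M hM ν₁ ν₂ hne
    have hne' : (ν₁ : G) ≠ ν₂ := fun h => hne (Subtype.ext h)
    have : ∃ l : L, (ν₁ : G) • l ≠ (ν₂ : G) • l := by
      by_contra hcon
      push Not at hcon
      exact hne' (eq_of_smul_eq_smul hcon)
    obtain ⟨l, hl⟩ := this
    refine ⟨l ⊗ₜ[ℚ] (1 : ℚ_[q]), ?_⟩
    have h1 : ν₁ • (l ⊗ₜ[ℚ] (1 : ℚ_[q]) : SemiLocal L q) - ν₂ • (l ⊗ₜ[ℚ] (1 : ℚ_[q]) : SemiLocal L q)
        = (((ν₁ : G) • l - (ν₂ : G) • l) ⊗ₜ[ℚ] (1 : ℚ_[q]) : SemiLocal L q) := by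
      rw [TensorProduct.sub_tmul]
      rfl
    rw [h1]
    exact SemiLocalGalois.tmul_one_notMem L q (sub_ne_zero.2 hl) M hM.ne_top
  obtain ⟨y, y', hyy', hy⟩ := hilbert90_artinian (A := SemiLocal L q) (N := N) hsep
    (fun n => (c n : SemiLocal L q)) (fun n => ((c n)⁻¹ : (SemiLocal L q)ˣ))
    (fun n => Units.mul_inv _)
    (fun a b => by
      have := congrArg Units.val (hc a b)
      exact this)
  -- cut `y` down to the block
  obtain ⟨y₁, hy₁⟩ := SemiLocalGalois.exists_forall_sub_mem
    (fun M : MaximalSpectrum (SemiLocal L q) =>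
      if SemiLocalGalois.InOrbit G M.asIdeal m then y else 1)
  obtain ⟨y₁', hy₁'⟩ := SemiLocalGalois.exists_forall_sub_mem
    (fun M : MaximalSpectrum (SemiLocal L q) =>
      if SemiLocalGalois.InOrbit G M.asIdeal m then y' else 1)
  have hmul : y₁ * y₁' = 1 := by
    apply SemiLocalGalois.mul_eq_one_of_forall_mem
    intro M hM
    have h1 := hy₁ ⟨M, hM⟩
    have h2 := hy₁' ⟨M, hM⟩
    by_cases ho : SemiLocalGalois.InOrbit G M m
    · simp only [ho, if_true] at h1 h2
      have : y₁ * y₁' - 1 = (y₁ - y) * y₁' + y * (y₁' - y') := by rw [← hyy']; ring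
      rw [this]
      exact M.add_mem (M.mul_mem_right _ h1) (M.mul_mem_left _ h2)
    · simp only [ho, if_false] at h1 h2
      have : y₁ * y₁' - 1 = (y₁ - 1) * y₁' + (y₁' - 1) := by ring
      rw [this]
      exact M.add_mem (M.mul_mem_right _ h1) h2
  have hmul' : y₁' * y₁ = 1 := by rw [mul_comm, hmul]
  have hYmem : (⟨y₁, y₁', hmul, hmul'⟩ : (SemiLocal L q)ˣ) ∈ orbitUnits G L q m := by
    rw [SemiLocalGalois.mem_orbitUnits_iff]
    intro M hM ho
    have h1 := hy₁ ⟨M, hM⟩
    simp only [ho, if_false] at h1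
    exact h1
  refine ⟨⟨y₁, y₁', hmul, hmul'⟩, hYmem, fun n => Units.ext ?_⟩
  show (c n : SemiLocal L q) * (n : G) • y₁ = y₁
  rw [← sub_eq_zero]
  apply SemiLocalGalois.eq_zero_of_forall_mem
  intro M hM
  have hMn : (SemiLocalGalois.translate M (n : G)).IsMaximal :=
    SemiLocalGalois.translate_isMaximal hM (n : G)
  have horb : SemiLocalGalois.InOrbit G (SemiLocalGalois.translate M (n : G)) M :=
    ⟨(n : G), fun a => Iff.rfl⟩
  have h1 := hy₁ ⟨M, hM⟩
  have h2 := hy₁ ⟨_, hMn⟩
  by_cases ho : SemiLocalGalois.InOrbit G M m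
  · have ho' : SemiLocalGalois.InOrbit G (SemiLocalGalois.translate M (n : G)) m := horb.trans ho
    simp only [ho, if_true] at h1
    simp only [ho', if_true] at h2
    have h3 : (n : G) • (y₁ - y) ∈ M := SemiLocalGalois.mem_translate.mp h2
    have : (c n : SemiLocal L q) * (n : G) • y₁ - y₁ =
        (c n : SemiLocal L q) * (n : G) • (y₁ - y) - (y₁ - y) := by
      have e := hy n
      have e' : (c n : SemiLocal L q) * (n : G) • y = y := e
      rw [smul_sub, mul_sub, e']
      ring
    rw [this]
    exact M.sub_mem (M.mul_mem_left _ h3) h1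
  · have ho' : ¬ SemiLocalGalois.InOrbit G (SemiLocalGalois.translate M (n : G)) m :=
      fun h => ho (horb.symm.trans h)
    simp only [ho, if_false] at h1
    simp only [ho', if_false] at h2
    have h3 : (n : G) • (y₁ - 1) ∈ M := SemiLocalGalois.mem_translate.mp h2
    have h4 : (c n : SemiLocal L q) - 1 ∈ M :=
      (SemiLocalGalois.mem_orbitUnits_iff G L q).mp (hcm n) M hM ho
    have : (c n : SemiLocal L q) * (n : G) • y₁ - y₁ =
        (c n : SemiLocal L q) * (n : G) • (y₁ - 1) + ((c n : SemiLocal L q) - 1) - (y₁ - 1) := by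
      rw [smul_sub, smul_one]
      ring
    rw [this]
    exact M.sub_mem (M.add_mem (M.mul_mem_left _ h3) h4) h1

/-- **[BH1]** Hilbert 90 for the blocks. -/
theorem blockH1_holds : BlockH1 := by
  intro G L _ _ _ _ _ _ q _ m hm N
  have hz : ∀ x : groupCohomology (Rep.res N.subtype (orbitRep G L q m)) 1, x = 0 := by
    intro x
    induction x using groupCohomology.H1_induction_on with | @h F =>
    rw [groupCohomology.H1π_eq_zero_iff]
    have hF := (groupCohomology.mem_cocycles₁_iff (A := Rep.res N.subtype (orbitRep G L q m)) F).1 F.2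
    -- the multiplicative cocycle
    let c : N → (SemiLocal L q)ˣ := fun n =>
      Additive.toMul (Subtype.val (p := fun y => y ∈ addSub (orbitUnits G L q m)) (F n))
    have hcm : ∀ n, c n ∈ orbitUnits G L q m := fun n =>
      Subtype.property (p := fun y => y ∈ addSub (orbitUnits G L q m)) (F n)
    have hc : ∀ a b : N, c (a * b) = c a * (a : G) • c b := by
      intro a b
      have h1 := congrArg (Subtype.val (p := fun y => y ∈ addSub (orbitUnits G L q m))) (hF a b)
      have h2 : c (a * b) = (a : G) • c b * c a := h1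
      rw [h2, mul_comm]
    obtain ⟨Y, hY, hYc⟩ := block_hilbert90 G L q m N c hcm hc
    refine ⟨⟨Additive.ofMul Y⁻¹, inv_mem hY⟩, ?_⟩
    funext n
    apply Subtype.ext
    show Additive.ofMul ((n : G) • Y⁻¹ / Y⁻¹) = Additive.ofMul (c n)
    congr 1
    rw [smul_inv', div_inv_eq_mul, inv_mul_eq_iff_eq_mul, mul_comm]
    exact (hYc n).symm
  have : Subsingleton (groupCohomology (Rep.res N.subtype (orbitRep G L q m)) 1) :=
    ⟨fun a b => (hz a).trans (hz b).symm⟩
  exact ModuleCat.isZero_of_subsingleton _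

end Fermat.Agent.CFT.Global.LGChase
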