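/-
CFT program, layer Global, [F2-chase]: the contract `LGChase.BlockTower` ([BT]).

For a tower `(G', L')` over `(G, L)` and a maximal ideal `m'` of `L' ⊗ ℚ_q` above the maximal
ideal `m` of `L ⊗ ℚ_q`: the block of `m` maps into the block of `m'`, and the `ker π`-invariants
of the block of `m'` come from the block of `m`.  Ingredients: `ker π` permutes transitively the
maximal ideals of `L' ⊗ ℚ_q` above a given one of `L ⊗ ℚ_q` (norm argument + Chinese remainder
theorem), lying over (idempotents), and the invariants of `L' ⊗ ℚ_q` (helper89's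
`ClassDescent.mem_range_iff_fixed`).  (helper45)
-/
import Mathlib
import Fermat.Agent.CFT.Global.LGChase

set_option autoImplicit false

open scoped Fermat.Agent.CFT.Global

namespace Fermat.Agent.CFT.Global.LGChase

open Fermat.Agent.CFT Fermat.Agent.CFT.Global

section Abstract

/-- **Transitivity.**  `N` a finite group acting on an Artinian ring `A'`, `φ : A →+* A'` with
image containing the `N`-invariants.  Two maximal ideals of `A'` with the same contraction to
`A` are conjugate under `N`. -/
theorem exists_smul_of_comap_eq {A A' N : Type*} [CommRing A] [CommRing A'] [IsArtinianRing A']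
    [Group N] [Fintype N] [MulSemiringAction N A'] (φ : A →+* A')
    (hfix : ∀ z : A', (∀ ν : N, ν • z = z) → z ∈ φ.range)
    (n' n'' : Ideal A') (hn' : n'.IsMaximal) (hn'' : n''.IsMaximal)
    (h : n'.comap φ = n''.comap φ) : ∃ ν : N, ∀ a : A', a ∈ n' ↔ ν • a ∈ n'' := by
  classical
  by_contra hcon
  -- the translates of `n''` are maximal ideals different from `n'`
  have hne : ∀ ν : N, SemiLocalGalois.translate n'' ν ≠ n' := by
    intro ν heq
    apply hcon
    refine ⟨ν, fun a => ?_⟩
    rw [← heq]
    exact SemiLocalGalois.mem_translate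
  obtain ⟨r, hr⟩ := SemiLocalGalois.exists_forall_sub_mem
    (fun M : MaximalSpectrum A' => if M.asIdeal = n' then (0 : A') else 1)
  have hr' : r ∈ n' := by
    have := hr ⟨n', hn'⟩
    simpa using this
  have hrν : ∀ ν : N, ν • r - 1 ∈ n'' := by
    intro ν
    have := hr ⟨SemiLocalGalois.translate n'' ν, SemiLocalGalois.translate_isMaximal hn'' ν⟩
    simp only [hne ν, if_false] at this
    have h2 : ν • (r - 1) ∈ n'' := SemiLocalGalois.mem_translate.mp this
    rwa [smul_sub, smul_one] at h2
  -- the norm of `r`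
  have hfixP : ∀ ν₀ : N, ν₀ • (∏ ν : N, ν • r) = ∏ ν : N, ν • r := by
    intro ν₀
    rw [Finset.smul_prod']
    exact Fintype.prod_equiv (Equiv.mulLeft ν₀) _ _ (fun ν => by
      show ν₀ • ν • r = (ν₀ * ν) • r
      rw [mul_smul])
  obtain ⟨a, ha⟩ := hfix _ hfixP
  have hP' : (∏ ν : N, ν • r) ∈ n' := by
    refine Ideal.prod_mem n' (Finset.mem_univ (1 : N)) ?_
    rw [one_smul]
    exact hr'
  have ha' : a ∈ n'.comap φ := by
    rw [Ideal.mem_comap, ha]
    exact hP'
  rw [h, Ideal.mem_comap, ha] at ha'
  -- but the norm is `≡ 1` modulo `n''`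
  have hone : Ideal.Quotient.mk n'' (∏ ν : N, ν • r) = 1 := by
    rw [map_prod]
    refine Finset.prod_eq_one fun ν _ => ?_
    rw [← map_one (Ideal.Quotient.mk n''), Ideal.Quotient.eq]
    exact hrν ν
  have hzero : Ideal.Quotient.mk n'' (∏ ν : N, ν • r) = 0 :=
    Ideal.Quotient.eq_zero_iff_mem.mpr ha'
  rw [hzero] at hone
  have : (1 : A') ∈ n'' := by
    rw [← Ideal.Quotient.eq_zero_iff_mem, map_one]
    exact hone.symm
  exact hn''.ne_top ((Ideal.eq_top_iff_one _).mpr this)

/-- **Lying over** for an injective map of Artinian rings with reduced target. -/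
theorem exists_comap_eq {A A' : Type*} [CommRing A] [IsArtinianRing A] [CommRing A']
    [IsArtinianRing A'] [IsReduced A'] (φ : A →+* A') (hφ : Function.Injective φ)
    (n : Ideal A) (hn : n.IsMaximal) : ∃ n' : Ideal A', n'.IsMaximal ∧ n'.comap φ = n := by
  classical
  obtain ⟨e, he⟩ := SemiLocalGalois.exists_forall_sub_mem
    (fun M : MaximalSpectrum A => if M.asIdeal = n then (1 : A) else 0)
  have he1 : e - 1 ∈ n := by
    have := he ⟨n, hn⟩
    simpa using this
  have hen : e ∉ n := by
    intro h
    have : (1 : A) ∈ n := by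
      have := n.sub_mem h he1
      simpa using this
    exact hn.ne_top ((Ideal.eq_top_iff_one _).mpr this)
  have hφe : φ e ≠ 0 := by
    intro h
    apply hen
    have : e = 0 := hφ (by rw [h, map_zero])
    rw [this]
    exact n.zero_mem
  have hex : ∃ n' : Ideal A', n'.IsMaximal ∧ φ e ∉ n' := by
    by_contra hcon
    push Not at hcon
    exact hφe (SemiLocalGalois.eq_zero_of_forall_mem hcon)
  obtain ⟨n', hn', hne⟩ := hex
  refine ⟨n', hn', ?_⟩
  have hprime : (n'.comap φ).IsPrime := Ideal.comap_isPrime φ n'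
  have hmax : (n'.comap φ).IsMaximal := IsArtinianRing.isMaximal_of_isPrime _
  by_contra hcon
  have := he ⟨n'.comap φ, hmax⟩
  simp only [hcon, if_false, sub_zero] at this
  exact hne this

end Abstract

/-- **[BT]** Blocks in a tower. -/
theorem blockTower_holds : BlockTower := by
  intro L L' G G' _ _ _ _ _ _ _ _ _ _ f π h q _ m' hm'
  have hA : IsArtinianRing (SemiLocal L q) := (SemiLocalGalois.semiLocalArtinian L q).1
  have hA' : IsArtinianRing (SemiLocal L' q) := (SemiLocalGalois.semiLocalArtinian L' q).1
  have hR' : IsReduced (SemiLocal L' q) := (SemiLocalGalois.semiLocalArtinian L' q).2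
  have hinj : Function.Injective (semiLocalMap q f) := ClassDescent.semiLocalMap_injective q f
  let _ : Fintype π.ker := Fintype.ofFinite _
  have hfix : ∀ z : SemiLocal L' q, (∀ ν : π.ker, ν • z = z) → z ∈ (semiLocalMap q f).range :=
    fun z hz => (ClassDescent.mem_range_iff_fixed h q z).mpr (fun n hn => hz ⟨n, hn⟩)
  have hmmax : (m'.comap (semiLocalMap q f)).IsMaximal := by
    have hprime : (m'.comap (semiLocalMap q f)).IsPrime := Ideal.comap_isPrime _ _
    exact IsArtinianRing.isMaximal_of_isPrime _
  refine ⟨fun x hx => ?_, fun y hy hfixy => ?_⟩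
  · rw [SemiLocalGalois.mem_orbitUnits_iff] at hx ⊢
    intro n' hn' hno
    have hnmax : (n'.comap (semiLocalMap q f)).IsMaximal := by
      have hprime : (n'.comap (semiLocalMap q f)).IsPrime := Ideal.comap_isPrime _ _
      exact IsArtinianRing.isMaximal_of_isPrime _
    have hno' : ¬ SemiLocalGalois.InOrbit G (n'.comap (semiLocalMap q f))
        (m'.comap (semiLocalMap q f)) := by
      rintro ⟨g, hg⟩
      obtain ⟨g', rfl⟩ := h.surj g
      -- `n'` and the translate of `m'` by `g'` lie over the same ideal
      have hcomap : n'.comap (semiLocalMap q f) =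
          (SemiLocalGalois.translate m' g').comap (semiLocalMap q f) := by
        ext a
        rw [hg, Ideal.mem_comap, Ideal.mem_comap, SemiLocalGalois.mem_translate,
          ClassDescent.semiLocalMap_smul h]
      obtain ⟨ν, hν⟩ := exists_smul_of_comap_eq (N := π.ker) (semiLocalMap q f) hfix n'
        (SemiLocalGalois.translate m' g') hn' (SemiLocalGalois.translate_isMaximal hm' g') hcomap
      apply hno
      refine ⟨g' * ν, fun a => ?_⟩
      rw [hν, SemiLocalGalois.mem_translate, mul_smul]
      rfl
    have h1 := hx _ hnmax hno'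
    rw [Ideal.mem_comap, map_sub, map_one] at h1
    exact h1
  · -- descend the unit
    have hy1 : ∀ n ∈ π.ker, n • (y : SemiLocal L' q) = y := by
      intro n hn
      have := congrArg Units.val (hfixy n hn)
      exact this
    have hy2 : ∀ n ∈ π.ker, n • ((y⁻¹ : (SemiLocal L' q)ˣ) : SemiLocal L' q) =
        ((y⁻¹ : (SemiLocal L' q)ˣ) : SemiLocal L' q) := by
      intro n hn
      have h1 : n • y⁻¹ = y⁻¹ := by rw [smul_inv', hfixy n hn]
      have := congrArg Units.val h1
      exact this
    obtain ⟨x₀, hx₀⟩ := (ClassDescent.mem_range_iff_fixed h q _).mpr hy1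
    obtain ⟨x₁, hx₁⟩ := (ClassDescent.mem_range_iff_fixed h q _).mpr hy2
    have h01 : x₀ * x₁ = 1 := by
      apply hinj
      rw [map_mul, hx₀, hx₁, map_one, Units.mul_inv]
    have h10 : x₁ * x₀ = 1 := by rw [mul_comm, h01]
    refine ⟨⟨x₀, x₁, h01, h10⟩, ?_, Units.ext hx₀⟩
    rw [SemiLocalGalois.mem_orbitUnits_iff]
    intro n hn hno
    obtain ⟨n', hn', rfl⟩ := exists_comap_eq (semiLocalMap q f) hinj n hn
    have hno' : ¬ SemiLocalGalois.InOrbit G' n' m' := by
      rintro ⟨g', hg'⟩
      apply hno
      refine ⟨π g', fun a => ?_⟩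
      rw [Ideal.mem_comap, Ideal.mem_comap, hg', ClassDescent.semiLocalMap_smul h]
    have h1 := (SemiLocalGalois.mem_orbitUnits_iff G' L' q).mp hy n' hn' hno'
    rw [Ideal.mem_comap, map_sub, map_one, hx₀]
    exact h1

end Fermat.Agent.CFT.Global.LGChase
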