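/-
CFT program, layer Global, [F2-chase]: `Plan.LocalGlobalInj` from the `p`-group axiom, the
local `p`-class module and the auxiliary layer (the two semilocal contracts [BT], [BH1] are
proved in `LGChase/BlockTower.lean`, `LGChase/BlockH1.lean`).  (helper45)
-/
import Fermat.Agent.CFT.Global.LGChase
import Fermat.Agent.CFT.Global.LGChase.BlockTower
import Fermat.Agent.CFT.Global.LGChase.BlockH1

set_option autoImplicit false

namespace Fermat.Agent.CFT.Global.LGChase

open Fermat.Agent.CFT Fermat.Agent.CFT.Global

/-- **[F2]** `Plan.LocalGlobalInj` from `Plan.PGroupAxiom` [E6], `Plan.LocClassP` [C6] and the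
auxiliary layer [AUX]. -/
theorem localGlobalInj_of_aux (hE6 : Plan.PGroupAxiom) (hC6 : Plan.LocClassP)
    (hAux : AuxLayer) : Plan.LocalGlobalInj :=
  localGlobalInj hE6 hC6 blockTower_holds blockH1_holds hAux

end Fermat.Agent.CFT.Global.LGChase
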