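/-
CFT program, layer Global, [F2-chase]: `Plan.LocalGlobalInj` from the `p`-group axiom [E6] and
the auxiliary layer [AUX] alone — the local `p`-class module [C6] (helper81's
`Bridge.LocClassP.locClassP`), blocks in a tower [BT] and Hilbert 90 for blocks [BH1] are
plugged in.  (helper45)
-/
import Fermat.Agent.CFT.Global.LGChase.Main
import Fermat.Agent.CFT.Global.LGChase.Cyc
import Fermat.Agent.CFT.Bridge.LocClassP

set_option autoImplicit false

namespace Fermat.Agent.CFT.Global.LGChase

open Fermat.Agent.CFT Fermat.Agent.CFT.Global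

/-- **[F2]** `Plan.LocalGlobalInj` from `Plan.PGroupAxiom` and the auxiliary layer. -/
theorem localGlobalInj_of_pGroupAxiom (hE6 : Plan.PGroupAxiom) (hAux : AuxLayer) :
    Plan.LocalGlobalInj :=
  localGlobalInj_of_aux hE6 Bridge.LocClassP.locClassP hAux

/-- **[F2]** `Plan.LocalGlobalInj` from `Plan.PGroupAxiom` and the auxiliary layer in norm form
(cyclic `Γ`). -/
theorem localGlobalInj_of_pGroupAxiom_cyc (hE6 : Plan.PGroupAxiom) (hAux : AuxLayerCyc) :
    Plan.LocalGlobalInj :=
  localGlobalInj_of_pGroupAxiom hE6 (auxLayer_of_cyc hAux)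

end Fermat.Agent.CFT.Global.LGChase
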